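import Fermat.Agent.S55.E1.H719.Lim2Fin
import Fermat.Agent.S55.E1.Lim.Sys

/-!
# S55 engine E1, block LIM, leaf LIM2 on the systems of `E1/Lim/Sys.lean` — helper719

The morphism of systems `c : T' → T` (`Ctx.sysT1 → Ctx.sysT`), induced by
`f' ↦ f' ≫ inclC1 : A_F(C') → A_F(C)`, and **LIM2**:

* `cT_evInj`  : `c` is eventually injective  (GD5, GD7: `IsGoodMu`);
* `cT_evSurj` : `c` is eventually surjective (GD5 + GD5b: `IsGoodFin`).
-/

set_option autoImplicit false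

open CategoryTheory CategoryTheory.Limits

namespace Fermat.Agent.S55.E1.H719

open Fermat.Agent.S55.Tow Fermat.Agent.S55.E1 Fermat.Agent.S55.E1.Lim

noncomputable section

variable {S : Finset Nat.Primes} {p : ℕ} [Fact p.Prime] (c : Ctx S p)

/-- `N_L` is killed by `p`. -/
lemma nsmul_NL_eq_zero (L : c.Idx) (n : (c.NL L).V) : p • n = 0 :=
  ZModModule.char_nsmul_eq_zero (G := (H603.coeff c.N L.1).V) p n

/-- `N_L` is finite if `N` is. -/
lemma finite_NL [Finite c.N.V] (L : c.Idx) : Finite (c.NL L).V :=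
  Finite.of_injective (cfVal c.N (L := L.1)) (cfVal_injective c.N)

/-- Composition with `inclC1` as an additive map `A_F(C') → A_F(C)`. -/
def inclA (L : c.Idx) : homA (c.NL L) (C1 c.D L.1) →+ homA (c.NL L) (c.D.C L.1) :=
  Preadditive.rightComp (stdR (c.NL L)) (inclC1 c.D L.1)

lemma inclA_apply (L : c.Idx) (f' : homA (c.NL L) (C1 c.D L.1)) :
    inclA c L f' = f' ≫ inclC1 c.D L.1 := rfl

lemma inclA_mem_locSub (L : c.Idx) :
    c.T1Sub L ≤ (H957.locSub (N := c.NL L) (c.jS L)).comap (inclA c L) := by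
  rintro _ ⟨g, rfl⟩
  rw [AddSubgroup.mem_comap, H957.mem_locSub]
  refine ⟨fun q => g ≫ piProj (fun q : S => L.1.J q.1) q, 0, ?_⟩
  rw [map_zero, add_zero]
  apply repHom_ext_tr
  intro r
  rw [sum_hom_apply]
  rfl

/-- The map `c_F : T'_F → T_F`. -/
def cApp (L : c.Idx) : c.T1Obj L →+ c.TObj L :=
  QuotientAddGroup.map _ _ (inclA c L) (inclA_mem_locSub c L)

lemma cApp_mk (L : c.Idx) (f' : homA (c.NL L) (C1 c.D L.1)) :
    cApp c L (QuotientAddGroup.mk f') = QuotientAddGroup.mk (f' ≫ inclC1 c.D L.1) := rfl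

/-- **The morphism of systems `c : T' → T`.** -/
def cT : AddSys.Hom c.sysT1 c.sysT where
  app := cApp c
  comm := fun {L L'} h x => by
    induction x using QuotientAddGroup.induction_on with
    | H f' =>
      change cApp c L' (c.trT1 h (QuotientAddGroup.mk f')) =
        c.trT h (cApp c L (QuotientAddGroup.mk f'))
      rw [Ctx.trT1_mk, cApp_mk, cApp_mk, Ctx.trT_mk, trA_comp_inclC1]

/-- **LIM2 (kernel part): `c : T' → T` is eventually injective.** -/
theorem cT_evInj (hD : c.D.IsGoodMu p) (hfin : ∀ L : c.Idx, Finite (c.NL L).V) :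
    (cT c).EvInj := by
  intro L x hx
  induction x using QuotientAddGroup.induction_on with
  | H f' =>
    have := hfin L
    have hx' : (QuotientAddGroup.mk (f' ≫ inclC1 c.D L.1) :
        H957.TQ (N := c.NL L) (fun q : S => c.D.j L.1 q.1)) = 0 := hx
    obtain ⟨L₁, hL₁, hev⟩ :=
      lim2_evInj_TQ hD (c.NL L) (nsmul_NL_eq_zero c L) f' hx'
    refine ⟨⟨L₁, L.2.trans hL₁⟩, hL₁, ?_⟩
    obtain ⟨g, hg⟩ := hev L₁ hL₁ le_rfl (c.NL ⟨L₁, L.2.trans hL₁⟩)
      (c.ν (L := L) (L' := ⟨L₁, L.2.trans hL₁⟩) hL₁)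
    exact (QuotientAddGroup.eq_zero_iff
      (trA (Level.proj hL₁) (c.ν (L := L) (L' := ⟨L₁, L.2.trans hL₁⟩) hL₁)
        (trC1 c.h7 hL₁) f')).2 ⟨g, hg.symm⟩

/-- **LIM2 (cokernel part): `c : T' → T` is eventually surjective** (uses GD5b). -/
theorem cT_evSurj (hD : c.D.IsGoodFin p) (hfin : ∀ L : c.Idx, Finite (c.NL L).V) :
    (cT c).EvSurj := by
  intro L y
  induction y using QuotientAddGroup.induction_on with
  | H f =>
    have := hfin L
    obtain ⟨L₁, hL₁, hev⟩ :=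
      lim2_evSurj_TQ (Fact.out : p.Prime) hD (c.NL L) (nsmul_NL_eq_zero c L) f
    refine ⟨⟨L₁, L.2.trans hL₁⟩, hL₁, ?_⟩
    obtain ⟨f', hf'⟩ := hev L₁ hL₁ le_rfl (c.NL ⟨L₁, L.2.trans hL₁⟩)
      (c.ν (L := L) (L' := ⟨L₁, L.2.trans hL₁⟩) hL₁)
    exact ⟨QuotientAddGroup.mk f', hf'⟩

end

end Fermat.Agent.S55.E1.H719
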