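import Fermat.Agent.S55.E1.Lim.Sys
import Fermat.Agent.S55.E1.H423.Cmp

/-!
# S55 engine E1, block LIM, leaf LIM5-K — helper719

`K_F = ker (𝔈²_F(E) → 𝔈²_F(J))` in local terms: for `y ∈ 𝔈²_F(E)`,

  `y ∈ K_F  ↔  ∀ q ∈ S, tr_q y = 0` in `𝔈²_{D_q}(N|_{D_q}, F_qˣ)`,

where `tr_q = trE2 (decHom q) 𝟙 (E(F) → F_qˣ)` is the transition map along the decomposition
group for the standard presentations.

* `ihomH1Map_piLift_eq_zero_iff` : `H¹(G, Hom(R, ∏ A_i)) → ∏ H¹(G, Hom(R, A_i))` is injective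
  (cocycle level; any index type);
* `sEmb L q : Res (sUnits L) ⟶ L.locUnits q`, `flat_diag`;
* `mem_KSub_iff`, `mem_KSub_iff_sEmb`.
-/

set_option autoImplicit false

open CategoryTheory CategoryTheory.Limits groupCohomology

namespace Fermat.Agent.S55.E1.H719

open Fermat.Agent.S55.Tow Fermat.Agent.S55.E1 Fermat.Agent.S55.E1.Lim
open Fermat.Agent.S55.T.H719 (ihomLin ihomMk)

noncomputable section

/-! ## `H¹(G, Hom(R, -))` and products -/

section Ext

variable {k : Type} [CommRing k] {G : Type} [Group G]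

/-- Extensionality for elements of `Hom_k(R, X)` (stated for general `k`, so that the module
structures are those of the representations). -/
lemma ihom_ext_apply {R X : Rep.{0} k G} {φ ψ : ((Rep.ihom R).obj X).V}
    (h : ∀ r : R.V, ihomLin φ r = ihomLin ψ r) : φ = ψ :=
  LinearMap.ext h

end Ext

section Pi

variable {G : Type} [Group G] {ι : Type}

lemma piLift_comp_piProj {A : ι → Rep.{0} ℤ G} {X : Rep.{0} ℤ G} (f : ∀ i, X ⟶ A i) (i : ι) :
    piLift f ≫ piProj A i = f i := by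
  apply Rep.hom_ext
  apply DFunLike.ext
  intro x
  rfl

/-- A class of `H¹(G, Hom(R, X))` dies in `H¹(G, Hom(R, ∏ A_i))` iff it dies in every
`H¹(G, Hom(R, A_i))`. -/
theorem ihomH1Map_piLift_eq_zero_iff (R : Rep.{0} ℤ G) {A : ι → Rep.{0} ℤ G} {X : Rep.{0} ℤ G}
    (f : ∀ i, X ⟶ A i) (y : H1 ((Rep.ihom R).obj X)) :
    (H354.ihomH1Map R (piLift f)).hom y = 0 ↔ ∀ i, (H354.ihomH1Map R (f i)).hom y = 0 := by
  constructor
  · intro h i
    have h1 : H354.ihomH1Map R (f i) =
        H354.ihomH1Map R (piLift f) ≫ H354.ihomH1Map R (piProj A i) := by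
      unfold H354.ihomH1Map
      rw [← groupCohomology.map_id_comp, ← Functor.map_comp, piLift_comp_piProj]
    rw [h1]
    show (H354.ihomH1Map R (piProj A i)).hom ((H354.ihomH1Map R (piLift f)).hom y) = 0
    rw [h, map_zero]
  · induction y using H1_induction_on with
    | h c =>
      intro h
      have h' : ∀ i, ∃ φ : ((Rep.ihom R).obj (A i)).V, ∀ (g : G) (r : R.V),
          (A i).ρ g (ihomLin φ (R.ρ g⁻¹ r)) - ihomLin φ r = (f i).hom (ihomLin (c g) r) := by
        intro i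
        have h0 := h i
        rw [H354.ihomH1Map_H1π, H1π_eq_zero_iff] at h0
        obtain ⟨φ, hφ⟩ := h0
        refine ⟨φ, fun g r => ?_⟩
        have := congrFun hφ g
        rw [d₀₁_hom_apply] at this
        exact congrArg (fun x => ihomLin x r) this
      choose φ hφ using h'
      rw [H354.ihomH1Map_H1π, H1π_eq_zero_iff]
      let Φ₀ : R.V →+ (piRep A).V :=
        { toFun := fun r => piOf (fun i => ihomLin (φ i) r)
          map_zero' := piRep_ext fun i => map_zero (ihomLin (φ i))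
          map_add' := fun r s => piRep_ext fun i => map_add (ihomLin (φ i)) r s }
      refine ⟨ihomMk (linOfAdd (A := R) (B := piRep A) Φ₀), ?_⟩
      funext g
      rw [d₀₁_hom_apply]
      refine ihom_ext_apply (fun r => ?_)
      refine piRep_ext (fun i => ?_)
      exact hφ i g r

end Pi

/-! ## The local criterion for `K_F` -/

section K

variable {S : Finset Nat.Primes}

/-- `E(F) → F_qˣ` as a morphism of `Gal(F_q/ℚ_q)`-modules. -/
def sEmb (L : Level S) (q : Nat.Primes) : Rep.res (L.decHom q) (sUnits L) ⟶ L.locUnits q :=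
  (Rep.resFunctor (L.decHom q)).map (sIncl L) ≫ L.emb q

lemma sEmb_apply (L : Level S) (q : Nat.Primes) (e : (sUnits L).V) :
    (sEmb L q).hom e = L.embFun q ((sIncl L).hom e) := rfl

/-- The diagonal `E(F) → J_q(F) = Coind F_qˣ`. -/
def sDiag (L : Level S) (q : Nat.Primes) : sUnits L ⟶ Rep.coind (L.decHom q) (L.locUnits q) :=
  sIncl L ≫ L.diag q

/-- `(E(F) → J_q(F))^♭ = (E(F) → F_qˣ)`. -/
lemma flat_diag (L : Level S) (q : Nat.Primes) :
    flat (L.decHom q) (sDiag L q) = sEmb L q := by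
  apply Rep.hom_ext
  apply DFunLike.ext
  intro e
  show L.embFun q (L.units.ρ 1 ((sIncl L).hom e)) = L.embFun q ((sIncl L).hom e)
  rw [map_one]
  rfl

variable {p : ℕ} [Fact p.Prime] (c : Ctx S p)

/-- **LIM5-K.** `y ∈ K_F` iff `tr_q y = 0` in `𝔈²_{D_q}(N|_{D_q}, F_qˣ)` for all `q ∈ S`. -/
theorem mem_KSub_iff (L : c.Idx) (y : E2 (c.NL L) (sUnits L.1)) :
    y ∈ c.KSub L ↔ ∀ q : S, trE2 (L.1.decHom q.1) (𝟙 (Rep.res (L.1.decHom q.1) (c.NL L)))
      (flat (L.1.decHom q.1) (sDiag L.1 q.1)) y = 0 := by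
  have h1 : y ∈ c.KSub L ↔
      (H354.ihomH1Map (stdR (c.NL L)) (piLift (fun q : S => sDiag L.1 q.1))).hom y = 0 :=
    Iff.rfl
  rw [h1, ihomH1Map_piLift_eq_zero_iff]
  refine forall_congr' fun q => ?_
  exact H423.E2_dies_iff_trE2 (c.NL L) (L.1.decHom_injective q.1) (sDiag L.1 q.1) y

/-- **LIM5-K**, in terms of `sEmb`. -/
theorem mem_KSub_iff_sEmb (L : c.Idx) (y : E2 (c.NL L) (sUnits L.1)) :
    y ∈ c.KSub L ↔ ∀ q : S, trE2 (L.1.decHom q.1) (𝟙 (Rep.res (L.1.decHom q.1) (c.NL L)))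
      (sEmb L.1 q.1) y = 0 := by
  rw [mem_KSub_iff]
  refine forall_congr' fun q => ?_
  rw [flat_diag]

end K

end

end Fermat.Agent.S55.E1.H719
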