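import Fermat.Agent.S55.E1.Lim.Sys
import Fermat.Agent.S55.E1.H304.Alg1
import Fermat.Agent.S55.T.NakHomH719

/-!
# S55 engine E1, block LIM, leaves LIM-SES and LIM1 — helper719

* `ses_shortExact` (LIM-SES): `0 → E(F) → J(F) → C'(F) → 0` (`Lim.ses h4 L`) is short exact
  (from GD4 = `KerDiag`, injectivity of the diagonal, `S ≠ ∅`);
* `dT : AddSys.Hom c.sysT1 c.sysK` (LIM1): the boundary maps `∂ : T'_F → K_F` of ALG3
  (`H354.stdBdryEquiv`), compatible with the transition maps (`H354.trE2_stdBdry`);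
* `dT_levelBij` : `∂` is a level-wise bijection.
-/

set_option autoImplicit false

open CategoryTheory CategoryTheory.Limits

namespace Fermat.Agent.S55.E1.H719

open Fermat.Agent.S55.Tow Fermat.Agent.S55.E1 Fermat.Agent.S55.E1.Lim

noncomputable section

/-! ## LIM-SES -/

section Ses

variable {S : Finset Nat.Primes}

lemma embQbar_inj (q : Nat.Primes) : Function.Injective (embQbar q) := by
  intro x y hxy
  apply Additive.toMul.injective
  have h := congrArg Additive.toMul hxy
  exact Units.map_injective (f := (padicEmbedding (q : ℕ)).toRingHom.toMonoidHom)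
    (padicEmbedding (q : ℕ)).toRingHom.injective h

lemma embFun_inj (L : Level S) (q : Nat.Primes) : Function.Injective (L.embFun q) := by
  intro x y hxy
  apply L.unitsCoe_injective
  apply embQbar_inj q
  rw [← L.locCoe_embFun, ← L.locCoe_embFun, hxy]

lemma diag_inj (L : Level S) (q : Nat.Primes) : Function.Injective (L.diag q).hom := by
  intro x y hxy
  apply embFun_inj L q
  have h := congrArg (fun f => L.Jeval q f 1) hxy
  simp only [Level.Jeval_diag, map_one] at h
  exact h

/-- The diagonal `E(F) → J(F)` is injective (`S ≠ ∅`). -/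
lemma diagTot_injective (hS : S.Nonempty) (L : Level S) :
    Function.Injective (diagTot L).hom := by
  obtain ⟨q, hq⟩ := hS
  intro x y hxy
  apply sIncl_injective L
  apply diag_inj L q
  exact congrArg (fun z : (Jtot L).V => piTo z ⟨q, hq⟩) hxy

variable {D : TowerDatum S}

/-- Exactness at `J(F)`: the kernel of `J(F) → C'(F)` is the diagonal image of `E(F)`. -/
lemma exists_diagTot_eq (hS : S.Nonempty) (h4 : KerDiag D) (L : Level S) (x : (Jtot L).V)
    (hx : (jC1 D L).hom x = 0) : ∃ e : (sUnits L).V, (diagTot L).hom e = x := by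
  have hx0 : ∀ g : L.Gal, (jTot D L).hom ((Jtot L).ρ g x) = 0 := by
    intro g
    rw [Rep.hom_comm_apply]
    have h1 : (jTot D L).hom x = (inclC1 D L).hom ((jC1 D L).hom x) := rfl
    rw [h1, hx, map_zero, map_zero]
  have key : ∀ g : L.Gal, ∃ e : L.units.V, L.IsSUnit e ∧
      ∀ q : S, piTo ((Jtot L).ρ g x) q = (L.diag q.1).hom e :=
    fun g => (h4 L (fun q => piTo ((Jtot L).ρ g x) q)).1 (hx0 g)
  obtain ⟨q₀, hq₀⟩ := hS
  obtain ⟨e, -, he⟩ := key 1
  have he' : ∀ q : S, piTo x q = (L.diag q.1).hom e := by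
    intro q
    have := he q
    rwa [map_one] at this
  have hmem : e ∈ sUnitsAdd L := by
    intro g
    obtain ⟨e', he'S, he'eq⟩ := key g
    have h2 : piTo ((Jtot L).ρ g x) ⟨q₀, hq₀⟩ = (L.J q₀).ρ g (piTo x ⟨q₀, hq₀⟩) := rfl
    have h3 : (L.J q₀).ρ g ((L.diag q₀).hom e) = (L.diag q₀).hom (L.units.ρ g e) :=
      (Rep.hom_comm_apply (L.diag q₀) g e).symm
    have h1 : (L.diag q₀).hom e' = (L.diag q₀).hom (L.units.ρ g e) :=
      (he'eq ⟨q₀, hq₀⟩).symm.trans (h2.trans ((congrArg _ (he' ⟨q₀, hq₀⟩)).trans h3))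
    have h5 : e' = L.units.ρ g e := diag_inj L q₀ h1
    exact h5 ▸ he'S
  refine ⟨subMk e hmem, ?_⟩
  refine piRep_ext (fun q => ?_)
  exact (he' q).symm

/-- **LIM-SES**: `0 → E(F) → J(F) → C'(F) → 0` is short exact. -/
theorem ses_shortExact (hS : S.Nonempty) (h4 : KerDiag D) (L : Level S) :
    (ses h4 L).ShortExact :=
  (T.H719.rep_shortExact_iff (ses h4 L)).2
    ⟨diagTot_injective hS L, jC1_surjective D L, exists_diagTot_eq hS h4 L⟩

end Ses

/-! ## LIM1 -/

section Lim1

variable {S : Finset Nat.Primes} {p : ℕ} [Fact p.Prime] (c : Ctx S p)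

/-- `R_F` is `ℤ`-projective (ALG1). -/
lemma projective_stdR (hfin : ∀ L : c.Idx, Finite (c.NL L).V) (L : c.Idx) :
    @Module.Projective ℤ _ (stdR (c.NL L)).V _ (stdR (c.NL L)).hV2 := by
  obtain ⟨hfree, -, -⟩ := H304.alg1 L.1.Gal (c.NL L) (hfin L)
  exact @Module.Projective.of_free ℤ _ (stdR (c.NL L)).V _ (stdR (c.NL L)).hV2 hfree

/-- The boundary map `∂_F : T'_F → K_F`. -/
def dApp (hS : S.Nonempty) (hfin : ∀ L : c.Idx, Finite (c.NL L).V) (L : c.Idx) :
    c.T1Obj L ≃+ c.KObj L :=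
  H354.stdBdryEquiv (c.NL L) (projective_stdR c hfin L) (ses_shortExact hS c.h4 L.1)

lemma dApp_mk (hS : S.Nonempty) (hfin : ∀ L : c.Idx, Finite (c.NL L).V) (L : c.Idx)
    (f'' : homA (c.NL L) (C1 c.D L.1)) :
    ((dApp c hS hfin L (QuotientAddGroup.mk f'') : c.KObj L) : E2 (c.NL L) (sUnits L.1)) =
      H354.stdBdry (c.NL L) (projective_stdR c hfin L) (ses_shortExact hS c.h4 L.1) f'' := rfl

/-- **LIM1: the morphism of systems `∂ : T' → K`.** -/
def dT (hS : S.Nonempty) (hfin : ∀ L : c.Idx, Finite (c.NL L).V) :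
    AddSys.Hom c.sysT1 c.sysK where
  app := fun L => (dApp c hS hfin L).toAddMonoidHom
  comm := fun {L L'} h x => by
    induction x using QuotientAddGroup.induction_on with
    | H f'' =>
      apply Subtype.ext
      change ((dApp c hS hfin L' (QuotientAddGroup.mk
          (trA (c.π h) (c.ν h) (trC1 c.h7 h) f'')) : c.KObj L') :
          E2 (c.NL L') (sUnits L'.1)) =
        trE2 (c.π h) (c.ν h) (trS h)
          ((dApp c hS hfin L (QuotientAddGroup.mk f'') : c.KObj L) : E2 (c.NL L) (sUnits L.1))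
      rw [dApp_mk, dApp_mk]
      exact (H354.trE2_stdBdry (c.π h) (c.ν h) (S := ses c.h4 L.1) (S' := ses c.h4 L'.1)
        (trS h) (trJtot h) (trC1 c.h7 h)
        (projective_stdR c hfin L) (projective_stdR c hfin L')
        (ses_shortExact hS c.h4 L.1) (ses_shortExact hS c.h4 L'.1)
        (fun x => (trJtot_diagTot h x).symm) (fun x => (trC1_jC1 c.h7 h x).symm) f'').symm

/-- **LIM1: `∂ : T' → K` is a level-wise bijection.** -/
theorem dT_levelBij (hS : S.Nonempty) (hfin : ∀ L : c.Idx, Finite (c.NL L).V) :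
    (dT c hS hfin).LevelBij :=
  fun L => (dApp c hS hfin L).bijective

end Lim1

end

end Fermat.Agent.S55.E1.H719
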