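import Fermat.Agent.S55.E1.SpecLim
import Fermat.Agent.S55.E1.H719.Lim1Sys
import Fermat.Agent.S55.E1.H719.Lim2Sys

/-!
# S55 engine E1, block LIM: the producers `lim1 : LIM1Spec` and `lim2 : LIM2Spec` — helper719

Exact Specs of `E1/SpecLim.lean`.
* `lim1` : `∂ : T' → K` (`dT`, ALG3 + ALG10-∂ + LIM-SES) is a level-wise bijective morphism of
  systems;
* `lim2` : `T' → T` (`cT`, composition with `C'(F) ⊆ C(F)`) is eventually injective (GD5, ALG2)
  and eventually surjective (GD5b).
-/

set_option autoImplicit false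

namespace Fermat.Agent.S55.E1.H719

open Fermat.Agent.S55.Tow Fermat.Agent.S55.E1 Fermat.Agent.S55.E1.Lim

/-- For a good context, all the coefficient modules `N_F` are finite. -/
lemma finite_NL_of_good {S : Finset Nat.Primes} {p : ℕ} [Fact p.Prime] (c : Ctx S p)
    (hc : c.Good) (L : c.Idx) : Finite (c.NL L).V := by
  have : Module.Finite (ZMod p) c.M := hc.fin
  have : Module.Finite (ZMod p) (Module.Dual (ZMod p) c.M) := inferInstance
  have : Finite (Module.Dual (ZMod p) c.M) := Module.finite_of_finite (ZMod p)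
  have : Finite c.N.V := ‹Finite (Module.Dual (ZMod p) c.M)›
  exact finite_NL c L

/-- **LIM1.** -/
theorem lim1 : LIM1Spec := fun _ _ _ c hc =>
  ⟨dT c ⟨_, hc.hpS⟩ (finite_NL_of_good c hc),
    dT_levelBij c ⟨_, hc.hpS⟩ (finite_NL_of_good c hc)⟩

/-- **LIM2.** -/
theorem lim2 : LIM2Spec := fun _ _ _ c hc =>
  ⟨cT c, cT_evInj c hc.good.good (finite_NL_of_good c hc),
    cT_evSurj c hc.good (finite_NL_of_good c hc)⟩

end Fermat.Agent.S55.E1.H719
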