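import Fermat.Agent.S55.Spec.Datum2
import Fermat.Agent.S55.E1.Tr.Defs
import Fermat.Agent.S55.E1.H304.Alg1
import Fermat.Agent.S55.E1.H304.Alg2

/-!
# S55 engine E1, block LIM, leaf LIM2 (capitulation) — helper719

Blueprint `coord/S55-E1.md` §5.  Elementwise ("eventually") form, independent of the way the
systems `T'_F`, `T_F` are packaged:

* `lim2_ker`   : `h ∈ Bc_F(C)` with `h(R) ⊆ C'(F) := im (J(F) → C(F))`  ⇒  for all large `F'`,
                 `tr h = Σ_q h_q ≫ j_q` with `h_q ∈ Bc_{F'}(J_q)`;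
* `lim2_ker_A` : `f = Σ_q f_q ≫ j_q + res h ∈ A_F(C)` with values in `C'(F)`  ⇒  for all large `F'`,
                 `tr f ∈ Σ_q j_q ∘ A_{F'}(J_q)`   (eventual injectivity of `T'_F → T_F`);
* `lim2_coker` : for `f ∈ A_F(C)` there is `w ≡ 1 (p)` with `w • f = f + res h` and, for all large
                 `F'`, `tr (w • f)` has values in `C'(F')`   (eventual surjectivity of `T'_F → T_F`).

`lim2_coker` needs that `C(F) / C'(F)` is TORSION (`TorsionModLocal`, think: `Cl_S(F)` is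
finite).  This is NOT a field of the frozen `TowerDatum.IsGoodMu`; it is an explicit hypothesis.
-/

set_option autoImplicit false

open CategoryTheory CategoryTheory.Limits

namespace Fermat.Agent.S55.E1.H719

open Fermat.Agent.S55.Tow Fermat.Agent.S55.E1

noncomputable section

section Generic

variable {k G : Type} [CommRing k] [Group G]

/-- Evaluation of a finite sum of morphisms of representations. -/
lemma sum_hom_apply {ι : Type} (s : Finset ι) {A B : Rep.{0} k G} (f : ι → (A ⟶ B)) (a : A.V) :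
    (∑ i ∈ s, f i).hom a = ∑ i ∈ s, (f i).hom a := by
  rw [Rep.sum_hom, Representation.IntertwiningMap.sum_apply]

/-- The value of `Rep.freeLift` on a basis element. -/
lemma freeLift_hom_single {α : Type} (A : Rep.{0} k G) (f : α → A.V) (i : α) :
    (Rep.freeLift k G A f).hom (Finsupp.single i (MonoidAlgebra.single (1 : G) (1 : k))) =
      f i := by
  have h := Representation.freeLift_single_single A.ρ i (1 : G) (1 : k) f
  rw [map_one, one_smul] at h
  exact h

/-- Evaluation of an `ℕ`-multiple of a morphism of representations. -/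
lemma nsmul_hom_apply {A B : Rep.{0} k G} (n : ℕ) (f : A ⟶ B) (a : A.V) :
    (n • f).hom a = n • f.hom a := by
  induction n with
  | zero => rw [zero_nsmul, zero_nsmul]; rfl
  | succ m ih =>
    rw [succ_nsmul, succ_nsmul, ← ih]
    rfl

end Generic

variable {S : Finset Nat.Primes}

/-- **GDT**: `C(F) / im (J(F) → C(F))` is a torsion group (in arithmetic: `Cl_S(F)` is finite). -/
def TorsionModLocal (D : TowerDatum S) : Prop :=
  ∀ (L : Level S) (c : (D.C L).V), ∃ n : ℕ, 0 < n ∧ D.IsLocalSum L (n • c)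

section LocalSum

variable {D : TowerDatum S} {L : Level S}

lemma isLocalSum_zero : D.IsLocalSum L 0 :=
  ⟨fun _ => 0, by simp⟩

lemma isLocalSum_add {c c' : (D.C L).V} (h : D.IsLocalSum L c) (h' : D.IsLocalSum L c') :
    D.IsLocalSum L (c + c') := by
  obtain ⟨x, rfl⟩ := h
  obtain ⟨x', rfl⟩ := h'
  exact ⟨fun q => x q + x' q, by simp only [map_add, Finset.sum_add_distrib]⟩

lemma isLocalSum_neg {c : (D.C L).V} (h : D.IsLocalSum L c) : D.IsLocalSum L (-c) := by
  obtain ⟨x, rfl⟩ := h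
  exact ⟨fun q => -x q, by simp only [map_neg, Finset.sum_neg_distrib]⟩

lemma isLocalSum_nsmul (n : ℕ) {c : (D.C L).V} (h : D.IsLocalSum L c) :
    D.IsLocalSum L (n • c) := by
  induction n with
  | zero => rw [zero_nsmul]; exact isLocalSum_zero
  | succ k ih => rw [succ_nsmul]; exact isLocalSum_add ih h

/-- `tr` maps `im J(F)` into `im J(F')` (GD7a). -/
lemma isLocalSum_tr {p : ℕ} (hD : D.IsGoodMu p) {L' : Level S} (h : L ≤ L') {c : (D.C L).V}
    (hc : D.IsLocalSum L c) : D.IsLocalSum L' ((D.tr h).hom c) := by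
  obtain ⟨x, rfl⟩ := hc
  refine ⟨fun q => (Level.trJ h q.1).hom (x q), ?_⟩
  rw [map_sum]
  exact Finset.sum_congr rfl fun q _ => hD.gd7a h q.1 q.2 (x q)

/-- GD5 in "eventually" form. -/
lemma exists_level_isLocalSum {p : ℕ} (hD : D.IsGoodMu p) (c : (D.C L).V) (a : ℕ)
    (hc : D.IsLocalSum L (p ^ a • c)) :
    ∃ L₁ : Level S, L ≤ L₁ ∧ ∀ (L' : Level S) (h : L ≤ L'), L₁ ≤ L' →
      D.IsLocalSum L' ((D.tr h).hom c) := by
  obtain ⟨L₁, h₁, hc₁⟩ := hD.gd5 L c a hc
  refine ⟨L₁, h₁, fun L' h h' => ?_⟩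
  have := isLocalSum_tr hD h' hc₁
  rwa [hD.gd7b h₁ h' c] at this

/-- GD5 for a finite family, in "eventually" form. -/
lemma exists_level_forall_isLocalSum [IsDirected (Level S) (· ≤ ·)] {p : ℕ} (hD : D.IsGoodMu p)
    {ι : Type} [Finite ι] (c : ι → (D.C L).V) (a : ι → ℕ)
    (hc : ∀ i, D.IsLocalSum L (p ^ a i • c i)) :
    ∃ L₁ : Level S, L ≤ L₁ ∧ ∀ (L' : Level S) (h : L ≤ L'), L₁ ≤ L' →
      ∀ i, D.IsLocalSum L' ((D.tr h).hom (c i)) := by
  choose Lc hLc hcap using fun i => exists_level_isLocalSum hD (c i) (a i) (hc i)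
  have : Nonempty (Level S) := ⟨L⟩
  obtain ⟨M, hM⟩ := Finite.exists_le Lc
  obtain ⟨L₁, hL, hML⟩ := exists_ge_ge L M
  exact ⟨L₁, hL, fun L' h h' i => hcap i L' h (((hM i).trans hML).trans h')⟩

end LocalSum

section Ker

variable (D : TowerDatum S)

/-- The value of `tr h` on a basis element. -/
lemma trB_stdE {L L' : Level S} (h : L ≤ L') {N : Rep.{0} ℤ L.Gal} {N' : Rep.{0} ℤ L'.Gal}
    (ν : N' ⟶ Rep.res (Level.proj h) N) (hB : homB N (D.C L)) (n' : N'.V) :
    (trB (Level.proj h) ν (D.tr h) hB).hom (stdE N' n') =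
      (D.tr h).hom (hB.hom (stdE N (ν.hom n'))) := by
  rw [trB_hom_apply, trP_stdE]

/-- **LIM2 (kernel part), form for `Bc`.**  If `h ∈ Bc_F(C)` maps `R` into `im J(F)`, then for all
large `F'` the transported `tr h ∈ Bc_{F'}(C)` factors through `⊕_q J_q(F')`. -/
theorem lim2_ker [IsDirected (Level S) (· ≤ ·)] {p : ℕ} (hD : D.IsGoodMu p) {L : Level S}
    (N : Rep.{0} ℤ L.Gal) [Finite N.V] (hpN : ∀ n : N.V, p • n = 0) (hB : homB N (D.C L))
    (hloc : ∀ r : (stdR N).V, D.IsLocalSum L ((resBA N (D.C L) hB).hom r)) :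
    ∃ L₁ : Level S, L ≤ L₁ ∧ ∀ (L' : Level S) (h : L ≤ L'), L₁ ≤ L' →
      ∀ (N' : Rep.{0} ℤ L'.Gal) (ν : N' ⟶ Rep.res (Level.proj h) N),
        ∃ hJ : ∀ q : S, homB N' (L'.J q.1),
          trB (Level.proj h) ν (D.tr h) hB = ∑ q : S, hJ q ≫ D.j L' q.1 := by
  have key : ∀ n : N.V, D.IsLocalSum L (p ^ 1 • hB.hom (stdE N n)) := by
    intro n
    have h1 := hloc ((H304.mulP p N hpN).hom (stdE N n))
    have h2 : (stdι N).hom ((H304.mulP p N hpN).hom (stdE N n)) = p • stdE N n := by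
      have := congrArg (fun f : stdP N ⟶ stdP N => f.hom (stdE N n))
        (H304.mulP_comp_stdι p N hpN)
      simp only [Rep.nsmul_hom] at this
      exact this
    have h3 : (resBA N (D.C L) hB).hom ((H304.mulP p N hpN).hom (stdE N n)) =
        hB.hom ((stdι N).hom ((H304.mulP p N hpN).hom (stdE N n))) := rfl
    rw [h3, h2, map_nsmul] at h1
    rwa [pow_one]
  obtain ⟨L₁, hL₁, hcap⟩ := exists_level_forall_isLocalSum hD
    (fun n : N.V => hB.hom (stdE N n)) (fun _ => 1) key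
  refine ⟨L₁, hL₁, fun L' h h' N' ν => ?_⟩
  have hx : ∀ n' : N'.V, D.IsLocalSum L' ((D.tr h).hom (hB.hom (stdE N (ν.hom n')))) :=
    fun n' => hcap L' h h' (ν.hom n')
  choose x hx using hx
  refine ⟨fun q => Rep.freeLift ℤ L'.Gal (L'.J q.1) (fun n' => x n' q), ?_⟩
  apply Rep.free_ext
  intro n'
  have h1 : (trB (Level.proj h) ν (D.tr h) hB).hom
      (Finsupp.single n' (MonoidAlgebra.single (1 : L'.Gal) (1 : ℤ))) =
      (D.tr h).hom (hB.hom (stdE N (ν.hom n'))) := trB_stdE D h ν hB n'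
  refine h1.trans ((hx n').trans ?_)
  rw [sum_hom_apply]
  refine Finset.sum_congr rfl fun q _ => ?_
  rw [Rep.comp_apply]
  congr 1
  exact (freeLift_hom_single (L'.J q.1) (fun n' => x n' q) n').symm

/-- GD7a in morphism form. -/
lemma res_j_comp_tr {p : ℕ} (hD : D.IsGoodMu p) {L L' : Level S} (h : L ≤ L') (q : S) :
    (Rep.resFunctor (Level.proj h)).map (D.j L q.1) ≫ D.tr h = Level.trJ h q.1 ≫ D.j L' q.1 := by
  apply repHom_ext_tr
  intro x
  exact hD.gd7a h q.1 q.2 x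

/-- `tr (f_q ≫ j_q) = tr f_q ≫ j_q`. -/
lemma trA_comp_j {p : ℕ} (hD : D.IsGoodMu p) {L L' : Level S} (h : L ≤ L')
    {N : Rep.{0} ℤ L.Gal} {N' : Rep.{0} ℤ L'.Gal} (ν : N' ⟶ Rep.res (Level.proj h) N) (q : S)
    (fJ : homA N (L.J q.1)) :
    trA (Level.proj h) ν (D.tr h) (fJ ≫ D.j L q.1) =
      trA (Level.proj h) ν (Level.trJ h q.1) fJ ≫ D.j L' q.1 := by
  change trR (Level.proj h) ν ≫ (Rep.resFunctor (Level.proj h)).map (fJ ≫ D.j L q.1) ≫ D.tr h =
    (trR (Level.proj h) ν ≫ (Rep.resFunctor (Level.proj h)).map fJ ≫ Level.trJ h q.1) ≫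
      D.j L' q.1
  rw [Functor.map_comp, Category.assoc, res_j_comp_tr D hD h q]
  simp only [Category.assoc]

/-- **LIM2 (kernel part) = eventual injectivity of `T'_F → T_F`.**  If
`f = Σ_q f_q ≫ j_q + res h ∈ A_F(C)` has values in `im J(F)`, then for all large `F'`
the transported `tr f ∈ A_{F'}(C)` lies in `Σ_q j_q ∘ A_{F'}(J_q)`. -/
theorem lim2_ker_A [IsDirected (Level S) (· ≤ ·)] {p : ℕ} (hD : D.IsGoodMu p) {L : Level S}
    (N : Rep.{0} ℤ L.Gal) [Finite N.V] (hpN : ∀ n : N.V, p • n = 0)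
    (fJ : ∀ q : S, homA N (L.J q.1)) (hB : homB N (D.C L))
    (hloc : ∀ r : (stdR N).V,
      D.IsLocalSum L ((∑ q : S, fJ q ≫ D.j L q.1 + resBA N (D.C L) hB).hom r)) :
    ∃ L₁ : Level S, L ≤ L₁ ∧ ∀ (L' : Level S) (h : L ≤ L'), L₁ ≤ L' →
      ∀ (N' : Rep.{0} ℤ L'.Gal) (ν : N' ⟶ Rep.res (Level.proj h) N),
        ∃ fJ' : ∀ q : S, homA N' (L'.J q.1),
          trA (Level.proj h) ν (D.tr h) (∑ q : S, fJ q ≫ D.j L q.1 + resBA N (D.C L) hB) =
            ∑ q : S, fJ' q ≫ D.j L' q.1 := by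
  have hloc' : ∀ r : (stdR N).V, D.IsLocalSum L ((resBA N (D.C L) hB).hom r) := by
    intro r
    have h1 := hloc r
    have h2 : D.IsLocalSum L ((∑ q : S, fJ q ≫ D.j L q.1).hom r) := by
      rw [sum_hom_apply]
      exact ⟨fun q => (fJ q).hom r, Finset.sum_congr rfl fun q _ => Rep.comp_apply _ _ _⟩
    have h3 : (resBA N (D.C L) hB).hom r =
        (∑ q : S, fJ q ≫ D.j L q.1 + resBA N (D.C L) hB).hom r +
          -((∑ q : S, fJ q ≫ D.j L q.1).hom r) := by
      rw [Rep.add_hom]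
      change _ = ((∑ q : S, fJ q ≫ D.j L q.1).hom r + (resBA N (D.C L) hB).hom r) + _
      abel
    rw [h3]
    exact isLocalSum_add h1 (isLocalSum_neg h2)
  obtain ⟨L₁, hL₁, hker⟩ := lim2_ker D hD N hpN hB hloc'
  refine ⟨L₁, hL₁, fun L' h h' N' ν => ?_⟩
  obtain ⟨hJ, hhJ⟩ := hker L' h h' N' ν
  refine ⟨fun q => trA (Level.proj h) ν (Level.trJ h q.1) (fJ q) + resBA N' (L'.J q.1) (hJ q), ?_⟩
  rw [map_add, map_sum, trA_resBA, hhJ, map_sum, ← Finset.sum_add_distrib]
  refine Finset.sum_congr rfl fun q _ => ?_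
  rw [trA_comp_j D hD h ν q (fJ q), Preadditive.add_comp]
  rfl

end Ker

section Coker

variable (D : TowerDatum S)

/-- `R` is a finitely generated abelian group (ALG1). -/
lemma exists_finset_closure_stdR {G : Type} [Group G] [Finite G] (N : Rep.{0} ℤ G)
    [Finite N.V] : ∃ s : Finset (stdR N).V, AddSubgroup.closure (s : Set (stdR N).V) = ⊤ := by
  obtain ⟨-, hfin, -⟩ := H304.alg1 G N inferInstance
  have e : (stdR N).hV2 = AddCommGroup.toIntModule _ := Subsingleton.elim _ _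
  rw [e] at hfin
  exact AddGroup.fg_def.1 (Module.Finite.iff_addGroup_fg.1 hfin)

/-- **LIM2 (cokernel part) = eventual surjectivity of `T'_F → T_F`.**  Assume that
`C(F)/im J(F)` is torsion.  For `f ∈ A_F(C)` there is `w ≡ 1 (mod p)` such that
`w • f − f ∈ res Bc_F(C)` and, for all large `F'`, `tr (w • f)` has values in `im J(F')`. -/
theorem lim2_coker [IsDirected (Level S) (· ≤ ·)] {p : ℕ} (hp : p.Prime) (hD : D.IsGoodMu p)
    (hT : TorsionModLocal D) {L : Level S} (N : Rep.{0} ℤ L.Gal) [Finite N.V]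
    (hpN : ∀ n : N.V, p • n = 0) (f : homA N (D.C L)) :
    ∃ (w : ℕ) (hB : homB N (D.C L)), w • f = f + resBA N (D.C L) hB ∧
      ∃ L₁ : Level S, L ≤ L₁ ∧ ∀ (L' : Level S) (h : L ≤ L'), L₁ ≤ L' →
        ∀ (N' : Rep.{0} ℤ L'.Gal) (ν : N' ⟶ Rep.res (Level.proj h) N) (r' : (stdR N').V),
          D.IsLocalSum L' ((trA (Level.proj h) ν (D.tr h) (w • f)).hom r') := by
  classical
  obtain ⟨s, hs⟩ := exists_finset_closure_stdR N
  choose n hn0 hn using fun r : (stdR N).V => hT L (f.hom r)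
  have hn₀ : (∏ r ∈ s, n r) ≠ 0 := (Finset.prod_pos fun r _ => hn0 r).ne'
  obtain ⟨a, m, hm, hnm⟩ := Nat.exists_eq_pow_mul_and_not_dvd hn₀ p hp.ne_one
  have hcop : Nat.Coprime m p := ((Nat.Prime.coprime_iff_not_dvd hp).2 hm).symm
  obtain ⟨m', -, hm'⟩ := Nat.exists_mul_mod_eq_one_of_coprime hcop hp.one_lt
  obtain ⟨h₀, hh₀⟩ := H304.alg2 p L.Gal N (D.C L) hpN f
  have hw : m * m' = p * (m * m' / p) + 1 := by
    have := Nat.div_add_mod (m * m') p
    rw [hm'] at this
    exact this.symm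
  refine ⟨m * m', (m * m' / p) • h₀, ?_, ?_⟩
  · have h1 : resBA N (D.C L) ((m * m' / p) • h₀) = (m * m' / p) • (p • f) := by
      rw [map_nsmul]
      congr 1
    rw [h1, ← mul_nsmul', add_comm f]
    conv_lhs => rw [hw]
    rw [add_nsmul, one_nsmul, mul_comm]
  · have hfam : ∀ r : s, D.IsLocalSum L (p ^ a • (m • f.hom r.1)) := by
      intro r
      obtain ⟨d, hd⟩ := Finset.dvd_prod_of_mem n r.2
      rw [← mul_nsmul', ← hnm, hd, mul_comm, mul_nsmul']
      exact isLocalSum_nsmul d (hn r.1)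
    obtain ⟨L₁, hL₁, hcap⟩ := exists_level_forall_isLocalSum hD
      (fun r : s => m • f.hom r.1) (fun _ => a) hfam
    refine ⟨L₁, hL₁, fun L' h h' N' ν r' => ?_⟩
    have hall : ∀ y : (stdR N).V, D.IsLocalSum L' ((D.tr h).hom (m • f.hom y)) := by
      intro y
      have hy : y ∈ AddSubgroup.closure (s : Set (stdR N).V) := by rw [hs]; trivial
      induction hy using AddSubgroup.closure_induction with
      | mem x hx => exact hcap L' h h' ⟨x, hx⟩
      | zero =>
        rw [map_zero, nsmul_zero, map_zero]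
        exact isLocalSum_zero
      | add x y _ _ hx hy =>
        rw [map_add, nsmul_add, map_add]
        exact isLocalSum_add hx hy
      | neg x _ hx =>
        rw [map_neg, neg_nsmul, map_neg]
        exact isLocalSum_neg hx
    rw [trA_hom_apply, nsmul_hom_apply, mul_nsmul, map_nsmul]
    exact isLocalSum_nsmul m' (hall _)

end Coker

end

end Fermat.Agent.S55.E1.H719
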