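import Fermat.Agent.S55.E1.H719.Lim2
import Fermat.Agent.S55.Spec.Datum3
import Fermat.Agent.S55.E1.Lim.Obj
import Fermat.Agent.S55.E1.H957.Lim3Abs

/-!
# S55 engine E1, block LIM, leaf LIM2 in the vocabulary of `E1/Lim/Obj.lean` — helper719

`C'(F) = Lim.C1 D L = im (J(F) → C(F))`, `T_F = H957.TQ j`, `T'_F = A_F(C') / (A_F(J) ≫ jC1)`.
The map `c : T'_F → T_F` is induced by `f' ↦ f' ≫ inclC1`.

* `lim2_evInj`  (eventual injectivity of `c`): if `f' ≫ inclC1 ∈ Σ_q j_q ∘ A(J_q) + res Bc(C)`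
  then for all large `F'`: `tr f' = g ≫ jC1` for some `g ∈ A_{F'}(J)`;
* `lim2_evSurj` (eventual surjectivity of `c`, needs GD5b = `IsGoodFin.gd5b`): for `f ∈ A_F(C)`,
  for all large `F'` there are `f' ∈ A_{F'}(C')`, `h' ∈ Bc_{F'}(C)` with
  `f' ≫ inclC1 = tr f + res h'`;  `lim2_evSurj_TQ` : the same in `T_{F'} = TQ`.
-/

set_option autoImplicit false

open CategoryTheory CategoryTheory.Limits

namespace Fermat.Agent.S55.E1.H719

open Fermat.Agent.S55.Tow Fermat.Agent.S55.E1 Fermat.Agent.S55.E1.Lim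

noncomputable section

variable {S : Finset Nat.Primes} {D : TowerDatum S}

/-- GD7a in the form of `Lim/Obj.lean`. -/
lemma trCompat_of_isGoodMu {p : ℕ} (hD : D.IsGoodMu p) : TrCompat D :=
  fun h q hq x => hD.gd7a h q hq x

/-- GD5b (Datum3) is the hypothesis of `lim2_coker`. -/
lemma torsionModLocal_of_isGoodFin {p : ℕ} (hD : D.IsGoodFin p) : TorsionModLocal D :=
  hD.gd5b

/-- `tr` commutes with `inclC1`. -/
lemma trA_comp_inclC1 (h7 : TrCompat D) {L L' : Level S} (h : L ≤ L')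
    {N : Rep.{0} ℤ L.Gal} {N' : Rep.{0} ℤ L'.Gal} (ν : N' ⟶ Rep.res (Level.proj h) N)
    (f' : homA N (C1 D L)) :
    trA (Level.proj h) ν (trC1 h7 h) f' ≫ inclC1 D L' =
      trA (Level.proj h) ν (D.tr h) (f' ≫ inclC1 D L) := by
  apply repHom_ext_tr
  intro r
  rfl

/-- `Σ_q f_q ≫ j_q = piLift f ≫ jTot`. -/
lemma sum_comp_j_eq (L : Level S) {N : Rep.{0} ℤ L.Gal} (fJ : ∀ q : S, homA N (L.J q.1)) :
    ∑ q : S, fJ q ≫ D.j L q.1 = piLift fJ ≫ jTot D L := by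
  apply repHom_ext_tr
  intro r
  rw [sum_hom_apply]
  rfl

/-- **LIM2, eventual injectivity of `c : T'_F → T_F`.** -/
theorem lim2_evInj [IsDirected (Level S) (· ≤ ·)] {p : ℕ} (hD : D.IsGoodMu p) {L : Level S}
    (N : Rep.{0} ℤ L.Gal) [Finite N.V] (hpN : ∀ n : N.V, p • n = 0) (f' : homA N (C1 D L))
    (hf' : IsLocSum (fun q : S => D.j L q.1) (f' ≫ inclC1 D L)) :
    ∃ L₁ : Level S, L ≤ L₁ ∧ ∀ (L' : Level S) (h : L ≤ L'), L₁ ≤ L' →
      ∀ (N' : Rep.{0} ℤ L'.Gal) (ν : N' ⟶ Rep.res (Level.proj h) N),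
        ∃ g : homA N' (Jtot L'),
          trA (Level.proj h) ν (trC1 (trCompat_of_isGoodMu hD) h) f' = g ≫ jC1 D L' := by
  obtain ⟨fJ, hB, hfeq⟩ := hf'
  have hloc : ∀ r : (stdR N).V,
      D.IsLocalSum L ((∑ q : S, fJ q ≫ D.j L q.1 + resBA N (D.C L) hB).hom r) := by
    intro r
    rw [← hfeq]
    exact (mem_C1Add D L _).1 (subVal_mem (f'.hom r))
  obtain ⟨L₁, hL₁, hker⟩ := lim2_ker_A D hD N hpN fJ hB hloc
  refine ⟨L₁, hL₁, fun L' h h' N' ν => ?_⟩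
  obtain ⟨fJ', hfJ'⟩ := hker L' h h' N' ν
  refine ⟨piLift fJ', ?_⟩
  have h1 : trA (Level.proj h) ν (trC1 (trCompat_of_isGoodMu hD) h) f' ≫ inclC1 D L' =
      (piLift fJ' ≫ jC1 D L') ≫ inclC1 D L' := by
    rw [trA_comp_inclC1, hfeq, hfJ', sum_comp_j_eq]
    apply repHom_ext_tr
    intro r
    rfl
  apply repHom_ext_tr
  intro r
  apply inclC1_injective D L'
  exact congrArg (fun t : stdR N' ⟶ D.C L' => t.hom r) h1

/-- **LIM2, eventual surjectivity of `c : T'_F → T_F`** (uses GD5b). -/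
theorem lim2_evSurj [IsDirected (Level S) (· ≤ ·)] {p : ℕ} (hp : p.Prime) (hD : D.IsGoodFin p)
    {L : Level S} (N : Rep.{0} ℤ L.Gal) [Finite N.V] (hpN : ∀ n : N.V, p • n = 0)
    (f : homA N (D.C L)) :
    ∃ L₁ : Level S, L ≤ L₁ ∧ ∀ (L' : Level S) (h : L ≤ L'), L₁ ≤ L' →
      ∀ (N' : Rep.{0} ℤ L'.Gal) (ν : N' ⟶ Rep.res (Level.proj h) N),
        ∃ (f' : homA N' (C1 D L')) (hB' : homB N' (D.C L')),
          f' ≫ inclC1 D L' = trA (Level.proj h) ν (D.tr h) f + resBA N' (D.C L') hB' := by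
  obtain ⟨w, hB, hw, L₁, hL₁, hval⟩ :=
    lim2_coker D hp hD.good (torsionModLocal_of_isGoodFin hD) N hpN f
  refine ⟨L₁, hL₁, fun L' h h' N' ν => ?_⟩
  refine ⟨subLift (C1Add D L') (C1Add_stable D L') (trA (Level.proj h) ν (D.tr h) (w • f))
    (fun r' => (mem_C1Add D L' _).2 (hval L' h h' N' ν r')), trB (Level.proj h) ν (D.tr h) hB, ?_⟩
  have h1 : subLift (C1Add D L') (C1Add_stable D L') (trA (Level.proj h) ν (D.tr h) (w • f))
      (fun r' => (mem_C1Add D L' _).2 (hval L' h h' N' ν r')) ≫ inclC1 D L' =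
      trA (Level.proj h) ν (D.tr h) (w • f) := by
    apply repHom_ext_tr
    intro r
    rfl
  refine h1.trans ?_
  rw [hw, map_add, trA_resBA]

/-- **LIM2, eventual surjectivity, in `T_{F'} = TQ`.** -/
theorem lim2_evSurj_TQ [IsDirected (Level S) (· ≤ ·)] {p : ℕ} (hp : p.Prime)
    (hD : D.IsGoodFin p) {L : Level S} (N : Rep.{0} ℤ L.Gal) [Finite N.V]
    (hpN : ∀ n : N.V, p • n = 0) (f : homA N (D.C L)) :
    ∃ L₁ : Level S, L ≤ L₁ ∧ ∀ (L' : Level S) (h : L ≤ L'), L₁ ≤ L' →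
      ∀ (N' : Rep.{0} ℤ L'.Gal) (ν : N' ⟶ Rep.res (Level.proj h) N),
        ∃ f' : homA N' (C1 D L'),
          (QuotientAddGroup.mk (f' ≫ inclC1 D L') :
            H957.TQ (N := N') (fun q : S => D.j L' q.1)) =
          QuotientAddGroup.mk (trA (Level.proj h) ν (D.tr h) f) := by
  obtain ⟨L₁, hL₁, hsurj⟩ := lim2_evSurj hp hD N hpN f
  refine ⟨L₁, hL₁, fun L' h h' N' ν => ?_⟩
  obtain ⟨f', hB', hf'⟩ := hsurj L' h h' N' ν
  refine ⟨f', ?_⟩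
  rw [hf', QuotientAddGroup.mk_add, add_eq_left, QuotientAddGroup.eq_zero_iff]
  exact AddSubgroup.mem_sup_left ⟨hB', rfl⟩

/-- **LIM2, eventual injectivity, hypothesis in `T_F = TQ`.** -/
theorem lim2_evInj_TQ [IsDirected (Level S) (· ≤ ·)] {p : ℕ} (hD : D.IsGoodMu p) {L : Level S}
    (N : Rep.{0} ℤ L.Gal) [Finite N.V] (hpN : ∀ n : N.V, p • n = 0) (f' : homA N (C1 D L))
    (hf' : (QuotientAddGroup.mk (f' ≫ inclC1 D L) :
      H957.TQ (N := N) (fun q : S => D.j L q.1)) = 0) :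
    ∃ L₁ : Level S, L ≤ L₁ ∧ ∀ (L' : Level S) (h : L ≤ L'), L₁ ≤ L' →
      ∀ (N' : Rep.{0} ℤ L'.Gal) (ν : N' ⟶ Rep.res (Level.proj h) N),
        ∃ g : homA N' (Jtot L'),
          trA (Level.proj h) ν (trC1 (trCompat_of_isGoodMu hD) h) f' = g ≫ jC1 D L' :=
  lim2_evInj hD N hpN f'
    ((H957.mem_locSub _ _).1 ((QuotientAddGroup.eq_zero_iff _).1 hf'))

end

end Fermat.Agent.S55.E1.H719
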